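/-
X015 project (statement S51): a semistable elliptic curve over ℚ cannot have both a rational
3-isogeny and a rational 5-isogeny (rational points of X₀(15)).

This file fixes the shared definitions.  Everything is expressed through `x`-coordinates.

For a Weierstrass curve `W` over a field `F`:
* `psi2Sq W x = 4x³ + b₂x² + 2b₄x + b₆` (the square of `ψ₂ = 2y + a₁x + a₃`),
* `dupNum W x = x⁴ - b₄x² - 2b₆x - b₈`, so that `x(2P) = dupNum (x P) / psi2Sq (x P)`,
* `psi3 W x = 3x⁴ + b₂x³ + 3b₄x² + 3b₆x + b₈ = x * psi2Sq - dupNum` (3-division polynomial).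

A *five pair* `(x₁, x₂)` is the pair of `x`-coordinates `x(P), x(2P)` of a point of order `5`
(equivalently a 2-cycle of the duplication map).  From a five pair and a root `X` of `psi3`
we define the invariants
* `t = (x₂ - x₁)³ / psi2Sq x₁` (Tate normal form parameter of `(E, P)`), `s = t - 1/t`,
* `w = (X - x₁)/(x₂ - x₁)`, `m = w (1 - w)`,
* `U = (2 w² t/(w - 1) + 3 w (w - 1)) (1 - 2 w)`,
which are unchanged under `(x₁, x₂) ↦ (x₂, x₁)` (i.e. `P ↦ 2P`) and satisfy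
`U² = m (1 - 4m) (9m + 4)`  (a Weierstrass model of `X₀(15)`),
`2 m² s = 3 m (3m - 1) + (m - 1) U`, and `c₄³ (s - 11) = Δ (s² - 12 s + 16)³`.
-/
import Mathlib

set_option autoImplicit false

namespace Fermat.Agent.Lib.X015

variable {F : Type*} [Field F]

/-- Numerator of the duplication map on `x`-coordinates. -/
def dupNum (W : WeierstrassCurve F) (x : F) : F :=
  x ^ 4 - W.b₄ * x ^ 2 - 2 * W.b₆ * x - W.b₈

/-- `ψ₂² = 4x³ + b₂x² + 2b₄x + b₆`, the denominator of the duplication map. -/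
def psi2Sq (W : WeierstrassCurve F) (x : F) : F :=
  4 * x ^ 3 + W.b₂ * x ^ 2 + 2 * W.b₄ * x + W.b₆

/-- The 3-division polynomial. -/
def psi3 (W : WeierstrassCurve F) (x : F) : F :=
  3 * x ^ 4 + W.b₂ * x ^ 3 + 3 * W.b₄ * x ^ 2 + 3 * W.b₆ * x + W.b₈

theorem psi3_eq (W : WeierstrassCurve F) (x : F) :
    psi3 W x = x * psi2Sq W x - dupNum W x := by
  simp only [psi3, psi2Sq, dupNum]; ring

/-- `(x₁, x₂) = (x(P), x(2P))` for a point `P` of order `5`: a 2-cycle of the duplication map. -/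
structure IsFivePair (W : WeierstrassCurve F) (x₁ x₂ : F) : Prop where
  ne : x₁ ≠ x₂
  d1 : psi2Sq W x₁ ≠ 0
  d2 : psi2Sq W x₂ ≠ 0
  h12 : x₂ * psi2Sq W x₁ = dupNum W x₁
  h21 : x₁ * psi2Sq W x₂ = dupNum W x₂

theorem IsFivePair.symm {W : WeierstrassCurve F} {x₁ x₂ : F} (h : IsFivePair W x₁ x₂) :
    IsFivePair W x₂ x₁ :=
  ⟨h.ne.symm, h.d2, h.d1, h.h21, h.h12⟩

/-- Tate normal form parameter of `(E, P)`. -/
noncomputable def tInv (W : WeierstrassCurve F) (x₁ x₂ : F) : F :=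
  (x₂ - x₁) ^ 3 / psi2Sq W x₁

/-- Hauptmodul of `X₀(5)` (up to the shift by `11`): `s = t - 1/t`. -/
noncomputable def sInv (W : WeierstrassCurve F) (x₁ x₂ : F) : F :=
  tInv W x₁ x₂ - (tInv W x₁ x₂)⁻¹

/-- Normalised `x`-coordinate of the 3-torsion point. -/
noncomputable def wInv (x₁ x₂ X : F) : F := (X - x₁) / (x₂ - x₁)

/-- `m = w (1 - w)`, the `x`-coordinate on the model `U² = m(1-4m)(9m+4)` of `X₀(15)`. -/
noncomputable def mInv (x₁ x₂ X : F) : F := wInv x₁ x₂ X * (1 - wInv x₁ x₂ X)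

/-- The `y`-coordinate on the model `U² = m(1-4m)(9m+4)` of `X₀(15)`. -/
noncomputable def UInv (W : WeierstrassCurve F) (x₁ x₂ X : F) : F :=
  (2 * wInv x₁ x₂ X ^ 2 * tInv W x₁ x₂ / (wInv x₁ x₂ X - 1)
      + 3 * wInv x₁ x₂ X * (wInv x₁ x₂ X - 1)) * (1 - 2 * wInv x₁ x₂ X)

theorem mInv_symm (x₁ x₂ X : F) (h : x₁ ≠ x₂) : mInv x₂ x₁ X = mInv x₁ x₂ X := by
  have h1 : x₂ - x₁ ≠ 0 := sub_ne_zero.mpr h.symm
  have h2 : x₁ - x₂ ≠ 0 := sub_ne_zero.mpr h
  simp only [mInv, wInv]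
  field_simp
  ring

/-- Compatibility with field homomorphisms (used for the Galois action). -/
theorem map_psi2Sq {F' : Type*} [Field F'] (σ : F →+* F') (W : WeierstrassCurve F) (x : F) :
    σ (psi2Sq W x) = psi2Sq (W.map σ) (σ x) := by
  simp only [psi2Sq, WeierstrassCurve.map_b₂, WeierstrassCurve.map_b₄, WeierstrassCurve.map_b₆,
    map_add, map_mul, map_pow, map_ofNat]

theorem map_dupNum {F' : Type*} [Field F'] (σ : F →+* F') (W : WeierstrassCurve F) (x : F) :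
    σ (dupNum W x) = dupNum (W.map σ) (σ x) := by
  simp only [dupNum, WeierstrassCurve.map_b₄, WeierstrassCurve.map_b₆, WeierstrassCurve.map_b₈,
    map_sub, map_mul, map_pow, map_ofNat]

theorem map_psi3 {F' : Type*} [Field F'] (σ : F →+* F') (W : WeierstrassCurve F) (x : F) :
    σ (psi3 W x) = psi3 (W.map σ) (σ x) := by
  simp only [psi3, WeierstrassCurve.map_b₂, WeierstrassCurve.map_b₄, WeierstrassCurve.map_b₆,
    WeierstrassCurve.map_b₈, map_add, map_mul, map_pow, map_ofNat]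

theorem map_tInv {F' : Type*} [Field F'] (σ : F →+* F') (W : WeierstrassCurve F) (x₁ x₂ : F) :
    σ (tInv W x₁ x₂) = tInv (W.map σ) (σ x₁) (σ x₂) := by
  simp only [tInv, map_div₀, map_pow, map_sub, map_psi2Sq]

theorem map_sInv {F' : Type*} [Field F'] (σ : F →+* F') (W : WeierstrassCurve F) (x₁ x₂ : F) :
    σ (sInv W x₁ x₂) = sInv (W.map σ) (σ x₁) (σ x₂) := by
  simp only [sInv, map_sub, map_inv₀, map_tInv]

theorem map_wInv {F' : Type*} [Field F'] (σ : F →+* F') (x₁ x₂ X : F) :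
    σ (wInv x₁ x₂ X) = wInv (σ x₁) (σ x₂) (σ X) := by
  simp only [wInv, map_div₀, map_sub]

theorem map_mInv {F' : Type*} [Field F'] (σ : F →+* F') (x₁ x₂ X : F) :
    σ (mInv x₁ x₂ X) = mInv (σ x₁) (σ x₂) (σ X) := by
  simp only [mInv, map_mul, map_sub, map_one, map_wInv]

theorem map_UInv {F' : Type*} [Field F'] (σ : F →+* F') (W : WeierstrassCurve F) (x₁ x₂ X : F) :
    σ (UInv W x₁ x₂ X) = UInv (W.map σ) (σ x₁) (σ x₂) (σ X) := by
  simp only [UInv, map_mul, map_add, map_sub, map_div₀, map_pow, map_one, map_ofNat, map_wInv,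
    map_tInv]

end Fermat.Agent.Lib.X015
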