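/-
X015 project (statement S51), work package WP4b: the core identities.

For a five pair `(x₁, x₂)` of a Weierstrass curve `W` (the `x`-coordinates of `P, 2P` for a point
`P` of order `5`) and a root `X` of the 3-division polynomial, the invariants `m, s, U` of
`Defs.lean` satisfy the equations of `X₀(15)`:
`U² = m(1-4m)(9m+4)`, `2m²s = 3m(3m-1) + (m-1)U`, `c₄³(s-11) = Δ(s²-12s+16)³`,
and they are symmetric under `(x₁, x₂) ↦ (x₂, x₁)`.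

Method: translate `x₁` to `0` (the `b`-invariants transform polynomially); then with
`β = x₂ - x₁`, `d = ψ₂²(x₁)` all translated `b`-invariants are rational functions of `(β, d)`
(this is Tate's normal form with `t = β³/d`), and `ψ₃(X) = 0` becomes
`R1 : w³t² + 3w²(w-1)²t + (w-1)³ = 0` with `w = (X-x₁)/β`.  No `y`-coordinate is needed.
-/
import Fermat.Agent.Lib.X015.Defs

set_option autoImplicit false

namespace Fermat.Agent.Lib.X015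

variable {F : Type*} [Field F]

/-! ### Translation of the `x`-coordinate -/

theorem h5_psi2Sq_add (W : WeierstrassCurve F) (r z : F) :
    psi2Sq W (r + z) = 4 * z ^ 3 + (W.b₂ + 12 * r) * z ^ 2
      + 2 * (W.b₄ + r * W.b₂ + 6 * r ^ 2) * z + psi2Sq W r := by
  simp only [psi2Sq]; ring

theorem h5_psi3_add (W : WeierstrassCurve F) (r z : F) :
    psi3 W (r + z) = 3 * z ^ 4 + (W.b₂ + 12 * r) * z ^ 3
      + 3 * (W.b₄ + r * W.b₂ + 6 * r ^ 2) * z ^ 2 + 3 * psi2Sq W r * z + psi3 W r := by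
  simp only [psi3, psi2Sq]; ring

theorem h5_dupNum_add (W : WeierstrassCurve F) (r z : F) :
    dupNum W (r + z) - r * psi2Sq W (r + z) = z ^ 4 - (W.b₄ + r * W.b₂ + 6 * r ^ 2) * z ^ 2
      - 2 * psi2Sq W r * z - psi3 W r := by
  simp only [dupNum, psi3, psi2Sq]; ring

theorem h5_b_relation_add (W : WeierstrassCurve F) (r : F) :
    4 * psi3 W r = (W.b₂ + 12 * r) * psi2Sq W r - (W.b₄ + r * W.b₂ + 6 * r ^ 2) ^ 2 := by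
  simp only [psi3, psi2Sq]; linear_combination W.b_relation

theorem h5_c4_add (W : WeierstrassCurve F) (r : F) :
    W.c₄ = (W.b₂ + 12 * r) ^ 2 - 24 * (W.b₄ + r * W.b₂ + 6 * r ^ 2) := by
  simp only [WeierstrassCurve.c₄]; ring

theorem h5_Δ_add (W : WeierstrassCurve F) (r : F) :
    W.Δ = -(W.b₂ + 12 * r) ^ 2 * psi3 W r - 8 * (W.b₄ + r * W.b₂ + 6 * r ^ 2) ^ 3
      - 27 * psi2Sq W r ^ 2
      + 9 * (W.b₂ + 12 * r) * (W.b₄ + r * W.b₂ + 6 * r ^ 2) * psi2Sq W r := by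
  simp only [WeierstrassCurve.Δ, psi3, psi2Sq]
  linear_combination (6 * r * W.b₂ + 36 * r ^ 2) * W.b_relation

/-! ### The identities in the variables `(w, t)` modulo `R1` -/

/-- `V² = m(9m+4)` modulo `R1`, hence `U² = m(1-4m)(9m+4)`. -/
theorem h5_core_a (w t : F) (hw1 : w - 1 ≠ 0)
    (R1 : w ^ 3 * t ^ 2 + 3 * w ^ 2 * (w - 1) ^ 2 * t + (w - 1) ^ 3 = 0) :
    ((2 * w ^ 2 * t / (w - 1) + 3 * w * (w - 1)) * (1 - 2 * w)) ^ 2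
      = (w * (1 - w)) * (1 - 4 * (w * (1 - w))) * (9 * (w * (1 - w)) + 4) := by
  have key : ((2 * w ^ 2 * t / (w - 1) + 3 * w * (w - 1)) * (1 - 2 * w)) ^ 2
      - (w * (1 - w)) * (1 - 4 * (w * (1 - w))) * (9 * (w * (1 - w)) + 4)
      = (1 - 2 * w) ^ 2 * (4 * w / (w - 1) ^ 2)
        * (w ^ 3 * t ^ 2 + 3 * w ^ 2 * (w - 1) ^ 2 * t + (w - 1) ^ 3) := by
    field_simp
    ring
  rw [R1, mul_zero] at key
  exact sub_eq_zero.mp key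

theorem h5_core_c (w t : F) (hw1 : w - 1 ≠ 0) (ht : t ≠ 0)
    (R1 : w ^ 3 * t ^ 2 + 3 * w ^ 2 * (w - 1) ^ 2 * t + (w - 1) ^ 3 = 0) :
    2 * (w * (1 - w)) ^ 2 * (t - t⁻¹)
      = 3 * (w * (1 - w)) * (3 * (w * (1 - w)) - 1)
        + ((w * (1 - w)) - 1) * ((2 * w ^ 2 * t / (w - 1) + 3 * w * (w - 1)) * (1 - 2 * w)) := by
  have key : 2 * (w * (1 - w)) ^ 2 * (t - t⁻¹)
      - (3 * (w * (1 - w)) * (3 * (w * (1 - w)) - 1)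
        + ((w * (1 - w)) - 1) * ((2 * w ^ 2 * t / (w - 1) + 3 * w * (w - 1)) * (1 - 2 * w)))
      = -(2 * w ^ 2 / (t * (w - 1)))
        * (w ^ 3 * t ^ 2 + 3 * w ^ 2 * (w - 1) ^ 2 * t + (w - 1) ^ 3) := by
    field_simp
    ring
  rw [R1, mul_zero] at key
  exact sub_eq_zero.mp key

/-- The swap `w ↦ 1 - w`, `t ↦ -1/t` fixes `U` (modulo `R1`). -/
theorem h5_core_U_symm (w t : F) (hw0 : w ≠ 0) (hw1 : w - 1 ≠ 0) (ht : t ≠ 0)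
    (R1 : w ^ 3 * t ^ 2 + 3 * w ^ 2 * (w - 1) ^ 2 * t + (w - 1) ^ 3 = 0) :
    (2 * (1 - w) ^ 2 * (-t⁻¹) / ((1 - w) - 1) + 3 * (1 - w) * ((1 - w) - 1)) * (1 - 2 * (1 - w))
      = (2 * w ^ 2 * t / (w - 1) + 3 * w * (w - 1)) * (1 - 2 * w) := by
  have key : (2 * (1 - w) ^ 2 * (-t⁻¹) / ((1 - w) - 1) + 3 * (1 - w) * ((1 - w) - 1))
        * (1 - 2 * (1 - w))
      - (2 * w ^ 2 * t / (w - 1) + 3 * w * (w - 1)) * (1 - 2 * w)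
      = (2 * (2 * w - 1) / (t * w * (w - 1)))
        * (w ^ 3 * t ^ 2 + 3 * w ^ 2 * (w - 1) ^ 2 * t + (w - 1) ^ 3) := by
    have h1 : (1 - w) - 1 = -w := by ring
    rw [h1]
    field_simp
    ring
  rw [R1, mul_zero] at key
  exact sub_eq_zero.mp key

/-! ### The structure of a five pair after translation -/

/-- The data extracted from a five pair: with `β = x₂ - x₁`, `d = ψ₂²(x₁)` and the translated
`b`-invariants `B₂, B₄`, one has `ψ₃(x₁) = -βd`, `B₄β = β³ - d`, `B₂d = -4βd + B₄²`. -/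
theorem h5_fivePair_data {W : WeierstrassCurve F} {x₁ x₂ : F} (h : IsFivePair W x₁ x₂) :
    x₂ - x₁ ≠ 0 ∧ psi2Sq W x₁ ≠ 0 ∧
    psi3 W x₁ = -(x₂ - x₁) * psi2Sq W x₁ ∧
    (W.b₄ + x₁ * W.b₂ + 6 * x₁ ^ 2) * (x₂ - x₁) = (x₂ - x₁) ^ 3 - psi2Sq W x₁ ∧
    (W.b₂ + 12 * x₁) * psi2Sq W x₁
      = -4 * (x₂ - x₁) * psi2Sq W x₁ + (W.b₄ + x₁ * W.b₂ + 6 * x₁ ^ 2) ^ 2 := by
  have hβ : x₂ - x₁ ≠ 0 := sub_ne_zero.mpr h.ne.symm
  have hB8 : psi3 W x₁ = -(x₂ - x₁) * psi2Sq W x₁ := by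
    rw [psi3_eq]; linear_combination h.h12
  refine ⟨hβ, h.d1, hB8, ?_, ?_⟩
  · have h1 := h5_dupNum_add W x₁ (x₂ - x₁)
    rw [show x₁ + (x₂ - x₁) = x₂ by ring, ← h.h21, sub_self, hB8] at h1
    have h2 : (x₂ - x₁) * ((W.b₄ + x₁ * W.b₂ + 6 * x₁ ^ 2) * (x₂ - x₁)
        - ((x₂ - x₁) ^ 3 - psi2Sq W x₁)) = 0 := by linear_combination h1
    rcases mul_eq_zero.mp h2 with h3 | h3
    · exact absurd h3 hβ
    · exact sub_eq_zero.mp h3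
  · have h1 := h5_b_relation_add W x₁
    rw [hB8] at h1
    linear_combination -h1

theorem h5_R1_abs (β d ξ B₂ B₄ : F) (hβ : β ≠ 0) (hd : d ≠ 0)
    (hB4 : B₄ * β = β ^ 3 - d) (hB2 : B₂ * d = -4 * β * d + B₄ ^ 2)
    (hpsi : 3 * ξ ^ 4 + B₂ * ξ ^ 3 + 3 * B₄ * ξ ^ 2 + 3 * d * ξ + -β * d = 0) :
    (ξ / β) ^ 3 * (β ^ 3 / d) ^ 2 + 3 * (ξ / β) ^ 2 * (ξ / β - 1) ^ 2 * (β ^ 3 / d)
      + (ξ / β - 1) ^ 3 = 0 := by
  have hB4' : B₄ = (β ^ 3 - d) / β := by rw [eq_div_iff hβ]; exact hB4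
  have hB2' : B₂ = (-4 * β * d + ((β ^ 3 - d) / β) ^ 2) / d := by
    rw [eq_div_iff hd, ← hB4']; exact hB2
  have key : (ξ / β) ^ 3 * (β ^ 3 / d) ^ 2 + 3 * (ξ / β) ^ 2 * (ξ / β - 1) ^ 2 * (β ^ 3 / d)
      + (ξ / β - 1) ^ 3
      = (1 / (β * d)) * (3 * ξ ^ 4 + B₂ * ξ ^ 3 + 3 * B₄ * ξ ^ 2 + 3 * d * ξ + -β * d) := by
    rw [hB2', hB4']
    field_simp
    ring
  rw [key, hpsi, mul_zero]

theorem h5_jrel_abs (β d B₂ B₄ : F) (hβ : β ≠ 0) (hd : d ≠ 0)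
    (hB4 : B₄ * β = β ^ 3 - d) (hB2 : B₂ * d = -4 * β * d + B₄ ^ 2) :
    (B₂ ^ 2 - 24 * B₄) ^ 3 * ((β ^ 3 / d - (β ^ 3 / d)⁻¹) - 11)
      = (-B₂ ^ 2 * (-β * d) - 8 * B₄ ^ 3 - 27 * d ^ 2 + 9 * B₂ * B₄ * d)
        * ((β ^ 3 / d - (β ^ 3 / d)⁻¹) ^ 2 - 12 * (β ^ 3 / d - (β ^ 3 / d)⁻¹) + 16) ^ 3 ∧
    (-B₂ ^ 2 * (-β * d) - 8 * B₄ ^ 3 - 27 * d ^ 2 + 9 * B₂ * B₄ * d)
      = β ^ 6 * ((β ^ 3 / d - (β ^ 3 / d)⁻¹) - 11) := by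
  have hB4' : B₄ = (β ^ 3 - d) / β := by rw [eq_div_iff hβ]; exact hB4
  have hB2' : B₂ = (-4 * β * d + ((β ^ 3 - d) / β) ^ 2) / d := by
    rw [eq_div_iff hd, ← hB4']; exact hB2
  constructor
  · rw [hB2', hB4']
    field_simp
    ring
  · rw [hB2', hB4']
    field_simp
    ring

theorem h5_t_symm_abs (β d B₂ B₄ : F) (hβ : β ≠ 0) (hd : d ≠ 0)
    (hB4 : B₄ * β = β ^ 3 - d) (hB2 : B₂ * d = -4 * β * d + B₄ ^ 2) :
    (4 * β ^ 3 + B₂ * β ^ 2 + 2 * B₄ * β + d) * d = β ^ 6 := by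
  have hB4' : B₄ = (β ^ 3 - d) / β := by rw [eq_div_iff hβ]; exact hB4
  have hB2' : B₂ = (-4 * β * d + ((β ^ 3 - d) / β) ^ 2) / d := by
    rw [eq_div_iff hd, ← hB4']; exact hB2
  rw [hB2', hB4']
  field_simp
  ring


/-! ### Main theorems -/

/-- The relation `R1 : w³t² + 3w²(w-1)²t + (w-1)³ = 0` between `t = tInv` and `w = wInv`. -/
theorem h5_R1 {W : WeierstrassCurve F} {x₁ x₂ X : F} (h : IsFivePair W x₁ x₂)
    (hX : psi3 W X = 0) :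
    wInv x₁ x₂ X ^ 3 * tInv W x₁ x₂ ^ 2
      + 3 * wInv x₁ x₂ X ^ 2 * (wInv x₁ x₂ X - 1) ^ 2 * tInv W x₁ x₂
      + (wInv x₁ x₂ X - 1) ^ 3 = 0 := by
  obtain ⟨hβ, hd, hB8, hB4, hB2⟩ := h5_fivePair_data h
  have hpsi := h5_psi3_add W x₁ (X - x₁)
  rw [show x₁ + (X - x₁) = X by ring, hX, hB8] at hpsi
  exact h5_R1_abs (x₂ - x₁) (psi2Sq W x₁) (X - x₁) _ _ hβ hd hB4 hB2 hpsi.symm

theorem h5_tInv_ne_zero {W : WeierstrassCurve F} {x₁ x₂ : F} (h : IsFivePair W x₁ x₂) :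
    tInv W x₁ x₂ ≠ 0 :=
  div_ne_zero (pow_ne_zero _ (sub_ne_zero.mpr h.ne.symm)) h.d1

theorem h5_wInv_ne_zero {W : WeierstrassCurve F} {x₁ x₂ X : F} (h : IsFivePair W x₁ x₂)
    (hX : psi3 W X = 0) : wInv x₁ x₂ X ≠ 0 := by
  intro h0
  have R1 := h5_R1 h hX
  rw [h0] at R1
  norm_num at R1

theorem h5_wInv_sub_one_ne_zero {W : WeierstrassCurve F} {x₁ x₂ X : F} (h : IsFivePair W x₁ x₂)
    (hX : psi3 W X = 0) : wInv x₁ x₂ X - 1 ≠ 0 := by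
  intro h0
  have R1 := h5_R1 h hX
  have h1 : wInv x₁ x₂ X = 1 := sub_eq_zero.mp h0
  rw [h1] at R1
  have : tInv W x₁ x₂ ^ 2 = 0 := by linear_combination R1
  exact h5_tInv_ne_zero h ((pow_eq_zero_iff two_ne_zero).mp this)

/-- **Core relations** (WP4b): the point `(m, U)` lies on `U² = m(1-4m)(9m+4)` (a model of
`X₀(15)`), `s` is determined by `(m, U)`, and `j = c₄³/Δ = (s²-12s+16)³/(s-11)`. -/
theorem core_relations {W : WeierstrassCurve F} {x₁ x₂ X : F} (h : IsFivePair W x₁ x₂)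
    (hX : psi3 W X = 0) (hΔ : W.Δ ≠ 0) :
    mInv x₁ x₂ X ≠ 0 ∧
    UInv W x₁ x₂ X ^ 2
      = mInv x₁ x₂ X * (1 - 4 * mInv x₁ x₂ X) * (9 * mInv x₁ x₂ X + 4) ∧
    2 * mInv x₁ x₂ X ^ 2 * sInv W x₁ x₂
      = 3 * mInv x₁ x₂ X * (3 * mInv x₁ x₂ X - 1) + (mInv x₁ x₂ X - 1) * UInv W x₁ x₂ X ∧
    sInv W x₁ x₂ ≠ 11 ∧
    W.c₄ ^ 3 * (sInv W x₁ x₂ - 11)
      = W.Δ * (sInv W x₁ x₂ ^ 2 - 12 * sInv W x₁ x₂ + 16) ^ 3 := by
  have R1 := h5_R1 h hX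
  have hw0 := h5_wInv_ne_zero h hX
  have hw1 := h5_wInv_sub_one_ne_zero h hX
  have ht := h5_tInv_ne_zero h
  obtain ⟨hβ, hd, hB8, hB4, hB2⟩ := h5_fivePair_data h
  obtain ⟨hj1, hj2⟩ := h5_jrel_abs (x₂ - x₁) (psi2Sq W x₁) _ _ hβ hd hB4 hB2
  have hc4 := h5_c4_add W x₁
  have hΔeq := h5_Δ_add W x₁
  rw [hB8] at hΔeq
  have hΔs : W.Δ = (x₂ - x₁) ^ 6 * (sInv W x₁ x₂ - 11) := by
    rw [hΔeq]; exact hj2
  refine ⟨?_, ?_, ?_, ?_, ?_⟩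
  · refine mul_ne_zero hw0 ?_
    intro h0
    exact hw1 (by linear_combination -h0)
  · exact h5_core_a _ _ hw1 R1
  · exact h5_core_c _ _ hw1 ht R1
  · intro hs
    apply hΔ
    rw [hΔs, hs, sub_self, mul_zero]
  · rw [hc4, hΔeq]
    exact hj1

/-- **Symmetry** (WP4b) under `(x₁, x₂) ↦ (x₂, x₁)`, i.e. `P ↦ 2P`: `t ↦ -1/t`, and `s`, `U`
are unchanged (`mInv_symm` is in `Defs`). -/
theorem core_symm {W : WeierstrassCurve F} {x₁ x₂ X : F} (h : IsFivePair W x₁ x₂)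
    (hX : psi3 W X = 0) :
    tInv W x₂ x₁ = -(tInv W x₁ x₂)⁻¹ ∧ sInv W x₂ x₁ = sInv W x₁ x₂ ∧
    UInv W x₂ x₁ X = UInv W x₁ x₂ X := by
  have R1 := h5_R1 h hX
  have hw0 := h5_wInv_ne_zero h hX
  have hw1 := h5_wInv_sub_one_ne_zero h hX
  have ht := h5_tInv_ne_zero h
  obtain ⟨hβ, hd, hB8, hB4, hB2⟩ := h5_fivePair_data h
  have hsym := h5_t_symm_abs (x₂ - x₁) (psi2Sq W x₁) _ _ hβ hd hB4 hB2
  have hp2 := h5_psi2Sq_add W x₁ (x₂ - x₁)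
  rw [show x₁ + (x₂ - x₁) = x₂ by ring] at hp2
  rw [← hp2] at hsym
  have hβ' : x₁ - x₂ ≠ 0 := sub_ne_zero.mpr h.ne
  have htt : tInv W x₂ x₁ = -(tInv W x₁ x₂)⁻¹ := by
    simp only [tInv]
    rw [inv_div, eq_neg_iff_add_eq_zero]
    have hd2 := h.d2
    field_simp
    linear_combination hsym
  have hww : wInv x₂ x₁ X = 1 - wInv x₁ x₂ X := by
    simp only [wInv]
    field_simp
    ring
  refine ⟨htt, ?_, ?_⟩
  · simp only [sInv]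
    rw [htt, inv_neg, inv_inv]
    ring
  · simp only [UInv]
    rw [htt, hww]
    exact h5_core_U_symm _ _ hw0 hw1 ht R1

end Fermat.Agent.Lib.X015
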